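import Fermat.Agent.LT.A2.H467.DataSpec
import Fermat.Agent.LT.A2.H426.TorusOpenCore

/-!
# Row LT, tower A2, leaf A2.03.1.1.04 `WX467.GoodArithC` (helper570)

OFF-MAIN.  `goodArithC570 : WX467.GoodArithC`, VERBATIM against `LT/A2/H467/DataSpec.lean`
(helper467, sha256 72cb2b55), unconditional (the hypothesis `T1.T1Out K` is not used).

Assets used (byte-identical copies): `LT/A2/H426/LocalNorm.lean`, `TorusOpenCore.lean`
(helper426): the norm form represents every unit integrally at a good place
(`exists_norm_eq_of_good426`), almost all places are good (`finite_not_good426`), neighbourhoods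
of `1` in `GL₂(𝔸_K)` in local terms (`nhds_one_GL426`, `nhds_zero_adl426`).

Proof.  `S` = the places which are not good (over `2`, or `t`, `n` not integral, or the
discriminant not a unit) together with the finitely many places which occur in a neighbourhood
`V` of `1` in `GL₂(𝔸_K)` on which `χT` is trivial on the torus (`χT` is continuous on the torus
and its values are `k`-th roots of unity, a finite set).  At `v ∉ S`: every element of `T(𝒪_v)`
lies in `V`; a unit `a_v` is `x² + t x y + n y²` with `x, y ∈ 𝒪_v`, and the adelic matrix with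
the component `[[x, -n y], [y, x + t y]]` at `v` and `1` elsewhere is in `T(𝒪_v)` with
determinant `a`.
-/

set_option autoImplicit false

open IsDedekindDomain NumberField
open scoped Topology

noncomputable section

namespace Fermat.Agent.LT.A2.H570

open Fermat.Agent.LT.H556 Fermat.Agent.LT.A2 Fermat.Agent.LT.A2.H426

variable {K : Type} [Field K] [NumberField K]

/-! ## 1. Components of adelic matrices -/

/-- The matrix of `g` at the finite place `v` is the image of `g` under the projection. -/
theorem finComp_eq_map570 (v : HeightOneSpectrum (𝓞 K)) (g : A0.G K) :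
    A0.finComp v g = (g : Matrix (Fin 2) (Fin 2) (A0.Adl K)).map (pF426 K v) := rfl

/-- The matrix of `g` at the infinite place `w`. -/
def infM570 (w : InfinitePlace K) (g : A0.G K) : Matrix (Fin 2) (Fin 2) w.Completion :=
  (g : Matrix (Fin 2) (Fin 2) (A0.Adl K)).map (pI426 K w)

theorem finComp_mul570 (v : HeightOneSpectrum (𝓞 K)) (g h : A0.G K) :
    A0.finComp v (g * h) = A0.finComp v g * A0.finComp v h := by
  rw [finComp_eq_map570, finComp_eq_map570, finComp_eq_map570, Units.val_mul, Matrix.map_mul]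

theorem finComp_one570 (v : HeightOneSpectrum (𝓞 K)) : A0.finComp v (1 : A0.G K) = 1 := by
  rw [finComp_eq_map570, Units.val_one, Matrix.map_one _ (map_zero _) (map_one _)]

theorem infM_mul570 (w : InfinitePlace K) (g h : A0.G K) :
    infM570 w (g * h) = infM570 w g * infM570 w h := by
  unfold infM570
  rw [Units.val_mul, Matrix.map_mul]

theorem infM_one570 (w : InfinitePlace K) : infM570 w (1 : A0.G K) = 1 := by
  unfold infM570
  rw [Units.val_one, Matrix.map_one _ (map_zero _) (map_one _)]

theorem trivAtInf_iff570 (w : InfinitePlace K) (g : A0.G K) :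
    A0.TrivAtInf w g ↔ infM570 w g = 1 := by
  constructor
  · intro h
    exact Matrix.ext fun i j => h i j
  · intro h i j
    have := congrFun (congrFun h i) j
    exact this

theorem finComp_inv_eq_one570 (v : HeightOneSpectrum (𝓞 K)) (g : A0.G K)
    (h : A0.finComp v g = 1) : A0.finComp v g⁻¹ = 1 := by
  have h1 : A0.finComp v g * A0.finComp v g⁻¹ = 1 := by
    rw [← finComp_mul570, mul_inv_cancel, finComp_one570]
  rw [h, Matrix.one_mul] at h1
  exact h1

theorem infM_inv_eq_one570 (w : InfinitePlace K) (g : A0.G K)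
    (h : infM570 w g = 1) : infM570 w g⁻¹ = 1 := by
  have h1 : infM570 w g * infM570 w g⁻¹ = 1 := by
    rw [← infM_mul570, mul_inv_cancel, infM_one570]
  rw [h, Matrix.one_mul] at h1
  exact h1

/-- The inverse of an element supported at `v` is supported at `v`. -/
theorem isLocalAtFin_inv570 (v : HeightOneSpectrum (𝓞 K)) (g : A0.G K)
    (h : A0.IsLocalAtFin v g) : A0.IsLocalAtFin v g⁻¹ :=
  ⟨fun w => (trivAtInf_iff570 w _).2 (infM_inv_eq_one570 w g ((trivAtInf_iff570 w g).1 (h.1 w))),
    fun v' hv' => finComp_inv_eq_one570 v' g (h.2 v' hv')⟩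

/-! ## 2. Elements of the local maximal compact subgroups are close to `1` -/

/-- An entry of `g - 1` for `g` supported at `v` and integral at `v`. -/
theorem entry_mem570 {N₀ : Set (A0.Adl K)}
    (B : ∀ w : InfinitePlace K, Set w.Completion) (I : Finset (HeightOneSpectrum (𝓞 K)))
    (N : ∀ v : HeightOneSpectrum (𝓞 K), Set (v.adicCompletion K))
    (hB : ∀ w, B w ∈ 𝓝 (0 : w.Completion)) (hN : ∀ v, N v ∈ 𝓝 (0 : v.adicCompletion K))
    (hBN : ∀ x : A0.Adl K, (∀ w, pI426 K w x ∈ B w) →
      (∀ v, pF426 K v x ∈ v.adicCompletionIntegers K) → (∀ v ∈ I, pF426 K v x ∈ N v) → x ∈ N₀)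
    (v : HeightOneSpectrum (𝓞 K)) (hv : v ∉ I) (g : A0.G K) (hloc : A0.IsLocalAtFin v g)
    (hint : A0.IsIntegralAt v g) (i j : Fin 2) :
    (g : Matrix (Fin 2) (Fin 2) (A0.Adl K)) i j
      - (1 : Matrix (Fin 2) (Fin 2) (A0.Adl K)) i j ∈ N₀ := by
  have hI : ∀ w : InfinitePlace K,
      pI426 K w ((g : Matrix (Fin 2) (Fin 2) (A0.Adl K)) i j
        - (1 : Matrix (Fin 2) (Fin 2) (A0.Adl K)) i j) = 0 := by
    intro w
    have h1 := congrFun (congrFun ((trivAtInf_iff570 w g).1 (hloc.1 w)) i) j
    have h2 := congrFun (congrFun (infM_one570 (K := K) w) i) j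
    unfold infM570 at h1 h2
    rw [Matrix.map_apply] at h1 h2
    rw [Units.val_one] at h2
    rw [map_sub, h1, h2, sub_self]
  have hF : ∀ v' : HeightOneSpectrum (𝓞 K), v' ≠ v →
      pF426 K v' ((g : Matrix (Fin 2) (Fin 2) (A0.Adl K)) i j
        - (1 : Matrix (Fin 2) (Fin 2) (A0.Adl K)) i j) = 0 := by
    intro v' hv'
    have h1 := congrFun (congrFun (hloc.2 v' hv') i) j
    have h2 := congrFun (congrFun (finComp_one570 (K := K) v') i) j
    rw [finComp_eq_map570, Matrix.map_apply] at h1 h2
    rw [Units.val_one] at h2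
    rw [map_sub, h1, h2, sub_self]
  have hFv : pF426 K v ((g : Matrix (Fin 2) (Fin 2) (A0.Adl K)) i j
        - (1 : Matrix (Fin 2) (Fin 2) (A0.Adl K)) i j) ∈ v.adicCompletionIntegers K := by
    have h1 : pF426 K v ((g : Matrix (Fin 2) (Fin 2) (A0.Adl K)) i j)
        ∈ v.adicCompletionIntegers K := hint i j
    have h2 := congrFun (congrFun (finComp_one570 (K := K) v) i) j
    rw [finComp_eq_map570, Matrix.map_apply, Units.val_one] at h2
    rw [map_sub, h2]
    refine sub_mem h1 ?_
    rw [Matrix.one_apply]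
    split_ifs
    · exact one_mem _
    · exact zero_mem _
  apply hBN
  · intro w
    rw [hI w]
    exact mem_of_mem_nhds (hB w)
  · intro v'
    by_cases hv' : v' = v
    · subst hv'
      exact hFv
    · rw [hF v' hv']
      exact zero_mem _
  · intro v' hv'I
    have hne : v' ≠ v := fun h => hv (h ▸ hv'I)
    rw [hF v' hne]
    exact mem_of_mem_nhds (hN v')

/-- Every neighbourhood of `1` in `GL₂(𝔸_K)` contains the local maximal compact subgroups at
almost all finite places. -/
theorem maxCompact_mem_nhds570 {V : Set (A0.G K)} (hV : V ∈ 𝓝 (1 : A0.G K)) :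
    ∃ I : Finset (HeightOneSpectrum (𝓞 K)), ∀ v : HeightOneSpectrum (𝓞 K), v ∉ I →
      ∀ g : A0.G K, A0.IsLocalAtFin v g → A0.IsIntegralAt v g → A0.IsIntegralAt v g⁻¹ →
        g ∈ V := by
  obtain ⟨N₀, hN₀, hN₀V⟩ := nhds_one_GL426 hV
  obtain ⟨B, I, N, hB, hN, hBN⟩ := nhds_zero_adl426 hN₀
  refine ⟨I, fun v hv g hloc hint hint' => ?_⟩
  apply hN₀V
  · exact entry_mem570 B I N hB hN hBN v hv g hloc hint
  · exact entry_mem570 B I N hB hN hBN v hv g⁻¹ (isLocalAtFin_inv570 v g hloc) hint'

/-! ## 3. The character is trivial near `1` -/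

theorem inTorus_one570 (t n : K) : InTorus t n (1 : A0.G K) := by
  refine ⟨1, 0, ?_⟩
  rw [Units.val_one]
  refine Matrix.ext fun i j => ?_
  fin_cases i <;> fin_cases j <;> simp [torMat]

/-- `χT` is trivial on the torus in a neighbourhood of `1`. -/
theorem chi_trivial_nhds570 (t n : K) (χT : A0.G K → ℂ) (hχ : IsTorusChar t n χT) :
    ∃ V ∈ 𝓝 (1 : A0.G K), ∀ m ∈ V, InTorus t n m → χT m = 1 := by
  obtain ⟨k, hk, hfin⟩ := hχ.fin_order
  have hcw : ContinuousWithinAt χT {m | InTorus t n m} 1 := hχ.cont 1 (inTorus_one570 t n)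
  have hRfin : {z : ℂ | z ^ k = 1 ∧ z ≠ 1}.Finite := by
    refine Set.Finite.subset (Polynomial.nthRootsFinset k (1 : ℂ)).finite_toSet ?_
    intro z hz
    exact (Polynomial.mem_nthRootsFinset hk _).2 hz.1
  have hRc : {z : ℂ | z ^ k = 1 ∧ z ≠ 1}ᶜ ∈ 𝓝 (χT 1) := by
    rw [hχ.one]
    exact hRfin.isClosed.isOpen_compl.mem_nhds (fun h => h.2 rfl)
  have hpre := hcw.tendsto hRc
  rw [Filter.mem_map, mem_nhdsWithin_iff_exists_mem_nhds_inter] at hpre
  obtain ⟨V, hV, hVsub⟩ := hpre
  refine ⟨V, hV, fun m hm hmT => ?_⟩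
  have h2 : χT m ∈ {z : ℂ | z ^ k = 1 ∧ z ≠ 1}ᶜ := hVsub ⟨hm, hmT⟩
  by_contra hne
  exact h2 ⟨hfin m hmT, hne⟩

/-! ## 4. The norm of `T(𝒪_v)` is onto at a good place -/

/-- The inverse of an integral `2 × 2` matrix with unit determinant is integral. -/
theorem inv_integral570 (v : HeightOneSpectrum (𝓞 K))
    (A A' : Matrix (Fin 2) (Fin 2) (v.adicCompletion K)) (hAA' : A * A' = 1)
    (hA : ∀ i j, A i j ∈ v.adicCompletionIntegers K) (hdet : Valued.v A.det = 1) :
    ∀ i j, A' i j ∈ v.adicCompletionIntegers K := by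
  have hdet0 : A.det ≠ 0 := by
    intro h
    rw [h, map_zero] at hdet
    exact zero_ne_one hdet
  have hinv : A' = A⁻¹ := (Matrix.inv_eq_right_inv hAA').symm
  have hA' : A' = (A.det)⁻¹ • A.adjugate := by
    rw [hinv, Matrix.inv_def, Ring.inverse_eq_inv']
  have hdi : (A.det)⁻¹ ∈ v.adicCompletionIntegers K := by
    rw [HeightOneSpectrum.mem_adicCompletionIntegers, map_inv₀, hdet, inv_one]
  intro i j
  rw [hA', Matrix.smul_apply, smul_eq_mul, Matrix.adjugate_fin_two]
  refine mul_mem hdi ?_
  fin_cases i <;> fin_cases j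
  · simpa using hA 1 1
  · simpa using neg_mem (hA 0 1)
  · simpa using neg_mem (hA 1 0)
  · simpa using hA 0 0

/-- The adele with the component `x` at `v` and the constant component `c` at every other finite
place, `cI` at the infinite places. -/
def single570 (v : HeightOneSpectrum (𝓞 K)) (x : v.adicCompletion K)
    (hx : x ∈ v.adicCompletionIntegers K) (c : ℤ) (w₀ : ∀ w : InfinitePlace K, w.Completion) :
    A0.Adl K := by
  classical
  exact mkAdl426 w₀
    (Function.update (fun v' : HeightOneSpectrum (𝓞 K) => ((c : ℤ) : v'.adicCompletion K)) v x)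
    (fun v' => by
      by_cases h : v' = v
      · subst h
        rw [Function.update_self]
        exact hx
      · rw [Function.update_of_ne h]
        exact intCast_mem _ c)

theorem pF_single_self570 (v : HeightOneSpectrum (𝓞 K)) (x : v.adicCompletion K)
    (hx : x ∈ v.adicCompletionIntegers K) (c : ℤ) (w₀ : ∀ w : InfinitePlace K, w.Completion) :
    pF426 K v (single570 v x hx c w₀) = x := by
  classical
  unfold single570
  rw [pF426_mk, Function.update_self]

theorem pF_single_of_ne570 (v : HeightOneSpectrum (𝓞 K)) (x : v.adicCompletion K)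
    (hx : x ∈ v.adicCompletionIntegers K) (c : ℤ) (w₀ : ∀ w : InfinitePlace K, w.Completion)
    (v' : HeightOneSpectrum (𝓞 K)) (h : v' ≠ v) :
    pF426 K v' (single570 v x hx c w₀) = ((c : ℤ) : v'.adicCompletion K) := by
  classical
  unfold single570
  rw [pF426_mk, Function.update_of_ne h]

theorem pI_single570 (v : HeightOneSpectrum (𝓞 K)) (x : v.adicCompletion K)
    (hx : x ∈ v.adicCompletionIntegers K) (c : ℤ) (w₀ : ∀ w : InfinitePlace K, w.Completion)
    (w : InfinitePlace K) : pI426 K w (single570 v x hx c w₀) = w₀ w := by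
  classical
  unfold single570
  rw [pI426_mk]

/-- **The norm `T(𝒪_v) → 𝒪_v^×` is onto at a good place.** -/
theorem good_norm570 (t n : K) (v : HeightOneSpectrum (𝓞 K)) (hg : Good426 K t n v)
    (a : (A0.Adl K)ˣ) (ha : IsUnitIdeleAt v a) :
    ∃ κ : A0.G K, WL.InTorusIntAt t n v κ ∧ Matrix.GeneralLinearGroup.det κ = a := by
  obtain ⟨h2, ht, hn, hd⟩ := hg
  have h2' : Valued.v (2 : v.adicCompletion K) = 1 := by
    rw [← map_ofNat (algebraMap K (v.adicCompletion K)) 2]
    exact h2
  have hd' : Valued.v ((algebraMap K (v.adicCompletion K) t) ^ 2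
      - 4 * algebraMap K (v.adicCompletion K) n) = 1 := by
    have e : algebraMap K (v.adicCompletion K) (t ^ 2 - 4 * n)
        = (algebraMap K (v.adicCompletion K) t) ^ 2
          - 4 * algebraMap K (v.adicCompletion K) n := by
      rw [map_sub, map_pow, map_mul, map_ofNat]
    rw [← e]
    exact hd
  have hav : Valued.v (pF426 K v (a : A0.Adl K)) = 1 := ha.2
  obtain ⟨x, y, hx, hy, hxy⟩ := exists_norm_eq_of_good426 K v _ _ h2' ht hn hd'
    (pF426 K v (a : A0.Adl K)) hav
  have hxO : x ∈ v.adicCompletionIntegers K :=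
    (HeightOneSpectrum.mem_adicCompletionIntegers (K := K) (v := v)).2 hx
  have hyO : y ∈ v.adicCompletionIntegers K :=
    (HeightOneSpectrum.mem_adicCompletionIntegers (K := K) (v := v)).2 hy
  have htO : algebraMap K (v.adicCompletion K) t ∈ v.adicCompletionIntegers K :=
    (HeightOneSpectrum.mem_adicCompletionIntegers (K := K) (v := v)).2 ht
  have hnO : algebraMap K (v.adicCompletion K) n ∈ v.adicCompletionIntegers K :=
    (HeightOneSpectrum.mem_adicCompletionIntegers (K := K) (v := v)).2 hn
  set p : A0.Adl K := single570 v x hxO 1 (fun _ => 1) with hp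
  set q : A0.Adl K := single570 v y hyO 0 (fun _ => 0) with hq
  -- components of `p`, `q`
  have pIp : ∀ w, pI426 K w p = 1 := fun w => pI_single570 v x hxO 1 _ w
  have pIq : ∀ w, pI426 K w q = 0 := fun w => pI_single570 v y hyO 0 _ w
  have pFp : pF426 K v p = x := pF_single_self570 v x hxO 1 _
  have pFq : pF426 K v q = y := pF_single_self570 v y hyO 0 _
  have pFp' : ∀ v', v' ≠ v → pF426 K v' p = 1 := fun v' h => by
    rw [hp, pF_single_of_ne570 v x hxO 1 _ v' h, Int.cast_one]
  have pFq' : ∀ v', v' ≠ v → pF426 K v' q = 0 := fun v' h => by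
    rw [hq, pF_single_of_ne570 v y hyO 0 _ v' h, Int.cast_zero]
  have hdet : (torMat (algebraMap K (A0.Adl K) t) (algebraMap K (A0.Adl K) n) p q).det
      = (a : A0.Adl K) := by
    rw [torMat, Matrix.det_fin_two_of]
    apply adl_ext426
    · intro w
      have hw : pI426 K w (a : A0.Adl K) = 1 := ha.1.1 w
      rw [hw, map_sub, map_mul, map_mul, map_add, map_mul, map_neg, map_mul, pIp, pIq]
      ring
    · intro v'
      by_cases h : v' = v
      · subst h
        rw [map_sub, map_mul, map_mul, map_add, map_mul, map_neg, map_mul, pFp, pFq,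
          pF426_algebraMap, pF426_algebraMap, ← hxy]
        ring
      · have hv' : pF426 K v' (a : A0.Adl K) = 1 := ha.1.2 v' h
        rw [hv', map_sub, map_mul, map_mul, map_add, map_mul, map_neg, map_mul, pFp' v' h,
          pFq' v' h]
        ring
  have hunit : IsUnit
      (torMat (algebraMap K (A0.Adl K) t) (algebraMap K (A0.Adl K) n) p q).det := by
    rw [hdet]
    exact a.isUnit
  set κ : A0.G K := Matrix.GeneralLinearGroup.mk'' _ hunit with hκ
  have hκval : (κ : Matrix (Fin 2) (Fin 2) (A0.Adl K))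
      = torMat (algebraMap K (A0.Adl K) t) (algebraMap K (A0.Adl K) n) p q := rfl
  -- the components of `κ`
  have hfin : ∀ v', A0.finComp v' κ
      = torMat (algebraMap K (v'.adicCompletion K) t) (algebraMap K (v'.adicCompletion K) n)
          (pF426 K v' p) (pF426 K v' q) := by
    intro v'
    rw [finComp_eq_map570, hκval]
    refine Matrix.ext fun i j => ?_
    fin_cases i <;> fin_cases j <;> simp [torMat, pF426_algebraMap]
  have hinf : ∀ w, infM570 w κ
      = torMat (algebraMap K w.Completion t) (algebraMap K w.Completion n)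
          (pI426 K w p) (pI426 K w q) := by
    intro w
    unfold infM570
    rw [hκval]
    refine Matrix.ext fun i j => ?_
    fin_cases i <;> fin_cases j <;> simp [torMat, pI426_algebraMap]
  have htor1 : ∀ {R : Type} [CommRing R] (t' n' : R), torMat t' n' 1 0 = 1 := by
    intro R _ t' n'
    refine Matrix.ext fun i j => ?_
    fin_cases i <;> fin_cases j <;> simp [torMat]
  have hloc : A0.IsLocalAtFin v κ := by
    refine ⟨fun w => (trivAtInf_iff570 w κ).2 ?_, fun v' hv' => ?_⟩
    · rw [hinf w, pIp, pIq, htor1]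
    · show A0.finComp v' κ = 1
      rw [hfin v', pFp' v' hv', pFq' v' hv', htor1]
  have hint : A0.IsIntegralAt v κ := by
    intro i j
    rw [hfin v, pFp, pFq]
    fin_cases i <;> fin_cases j
    · simpa [torMat] using hxO
    · simpa [torMat] using neg_mem (mul_mem hnO hyO)
    · simpa [torMat] using hyO
    · simpa [torMat] using add_mem hxO (mul_mem htO hyO)
  have hdetv : Valued.v (A0.finComp v κ).det = 1 := by
    rw [hfin v, pFp, pFq, torMat, Matrix.det_fin_two_of]
    have e : x * (x + algebraMap K (v.adicCompletion K) t * y)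
        - -(algebraMap K (v.adicCompletion K) n * y) * y
        = x ^ 2 + algebraMap K (v.adicCompletion K) t * x * y
          + algebraMap K (v.adicCompletion K) n * y ^ 2 := by ring
    rw [e, hxy]
    exact hav
  have hint' : A0.IsIntegralAt v κ⁻¹ := by
    refine inv_integral570 v (A0.finComp v κ) (A0.finComp v κ⁻¹) ?_ hint hdetv
    rw [← finComp_mul570, mul_inv_cancel, finComp_one570]
  refine ⟨κ, ⟨⟨p, q, hκval⟩, hloc, hint, hint'⟩, ?_⟩
  apply Units.ext
  rw [Matrix.GeneralLinearGroup.val_det_apply, hκval, hdet]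

/-! ## 5. The leaf -/

/-- The discriminant of an irreducible quadratic polynomial does not vanish. -/
theorem disc_ne_zero570 (t n : K) (h : ∀ x : K, x ^ 2 - t * x + n ≠ 0) :
    t ^ 2 - 4 * n ≠ 0 := by
  intro h0
  apply h (t / 2)
  have : n = t ^ 2 / 4 := by
    have h4 : (4 : K) ≠ 0 := by norm_num
    field_simp
    linear_combination -h0
  rw [this]
  ring

/-- **A2.03.1.1.04 GOOD-ARITH.** -/
theorem goodArithC570 : Fermat.Agent.LT.A2.WX467.GoodArithC := by
  intro K _ _ t n χT _ hχ
  classical
  have hd : t ^ 2 - 4 * n ≠ 0 := disc_ne_zero570 t n hχ.irred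
  have hbad := finite_not_good426 K t n hd
  obtain ⟨V, hV, hVχ⟩ := chi_trivial_nhds570 t n χT hχ
  obtain ⟨I, hI⟩ := maxCompact_mem_nhds570 hV
  refine ⟨hbad.toFinset ∪ I, fun v hv => ?_⟩
  rw [Finset.mem_union, not_or, Set.Finite.mem_toFinset, Set.mem_ofPred_eq, not_not] at hv
  obtain ⟨hg, hvI⟩ := hv
  refine ⟨⟨hg.2.1, hg.2.2.1, hg.2.2.2⟩, ?_, ?_⟩
  · intro κ hκ
    exact hVχ κ (hI v hvI κ hκ.2.1 hκ.2.2.1 hκ.2.2.2) hκ.1
  · intro a ha
    exact good_norm570 t n v hg a ha

end Fermat.Agent.LT.A2.H570
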